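/-
S18, package RED, pieces R5 (complete), R2 `IsChartInt.mem_Adm`, and the Gauss normal form of
MODFF (clause 3 of `CoreHyp`) — helper7251.  Statements VERBATIM from the skeleton
`Fermat/Agent/S18/Red.lean` (origin/helper6262), in namespace `Fermat.Agent.S18.RED7251`.

Everything comes from the degree theorem `[K(j(q^d) : d ∣ N) : K(j)] = ψ(N)` in every
characteristic prime to `N` (Route H of S28, re-namespaced in `Fermat/Agent/S37/Deg/`), via
`Fermat/Agent/S37/Deg/Res.lean` (normal form, reduction stays in `Ft`) and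
`Fermat/Agent/S37/Deg/Sep.lean` (degree, separability).  No use of the S28 saturation.
-/
import Fermat.Agent.S18.DefsMod
import Fermat.Agent.S37.Deg.Sep

set_option autoImplicit false

noncomputable section

namespace Fermat.Agent.S18.RED7251

open ModularCurve AlgebraicCurve ModularCurve.IgusaScheme IntermediateField
open Fermat.Agent.S37.Deg

variable (ℓ : ℕ) [Fact ℓ.Prime] (A : ValuationSubring (AlgebraicClosure ℚ)) (N : ℕ) [NeZero N]

variable {ℓ A N}

/-- `N ≠ 0` in the residue field. -/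
theorem natCast_residue_ne_zero (hℓN : ¬ ℓ ∣ N) (hA : A.LiesOverPrime ℓ) :
    (N : IsLocalRing.ResidueField A) ≠ 0 :=
  res_natCast_residue_ne_zero A (Fact.out : ℓ.Prime) hℓN hA

/-! ### R5: degree and separability of the special function field -/

theorem transcendental_jt (hA : A.LiesOverPrime ℓ) :
    Transcendental (IsLocalRing.ResidueField A) (jt A N) :=
  transcendental_jFullC (IsLocalRing.ResidueField A) N

theorem finiteDimensional_Ft (hℓN : ¬ ℓ ∣ N) (hA : A.LiesOverPrime ℓ) :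
    FiniteDimensional (IsLocalRing.ResidueField A)⟮jt A N⟯ (Ft A N) :=
  finiteDimensional_fullC (IsLocalRing.ResidueField A) N (natCast_residue_ne_zero hℓN hA)

theorem isSeparable_Ft (hℓN : ¬ ℓ ∣ N) (hA : A.LiesOverPrime ℓ) :
    Algebra.IsSeparable (IsLocalRing.ResidueField A)⟮jt A N⟯ (Ft A N) :=
  isSeparable_fullC (IsLocalRing.ResidueField A) N

/-- Both degrees are `ψ(N)`. -/
theorem finrank_Ft_eq_dedekindPsi (hℓN : ¬ ℓ ∣ N) (hA : A.LiesOverPrime ℓ) :
    Module.finrank (IsLocalRing.ResidueField A)⟮jt A N⟯ (Ft A N) = dedekindPsi N :=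
  finrank_fullC (IsLocalRing.ResidueField A) N (natCast_residue_ne_zero hℓN hA)

theorem finrank_Fb_eq_dedekindPsi (N : ℕ) [NeZero N] :
    Module.finrank (AlgebraicClosure ℚ)⟮jb N⟯ (Fb N) = dedekindPsi N :=
  finrank_laurentBaseChange (AlgebraicClosure ℚ) N (jb N) rfl

theorem finrank_Ft (hℓN : ¬ ℓ ∣ N) (hA : A.LiesOverPrime ℓ) :
    Module.finrank (IsLocalRing.ResidueField A)⟮jt A N⟯ (Ft A N) =
      Module.finrank (AlgebraicClosure ℚ)⟮jb N⟯ (Fb N) := by
  rw [finrank_Ft_eq_dedekindPsi hℓN hA, finrank_Fb_eq_dedekindPsi]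

/-! ### Admissibility is automatic: the reduction of an integral element of `Fb` lies in `Ft` -/

theorem mem_Adm_of_mem_Fb (hℓN : ¬ ℓ ∣ N) (hA : A.LiesOverPrime ℓ) {y : LaurentSeries A}
    (hy : coeffMap A.subtype y ∈ Fb N) : y ∈ Adm A (Fb N) (Ft A N) :=
  ⟨hy, coeffMap_residue_mem_fullC_modL A N (Fact.out : ℓ.Prime) hℓN hA y hy⟩

theorem chartSpan_le_Fb (S : Set ↥(modularFunctionFieldFull N)) (z : LaurentSeries (AlgebraicClosure ℚ))
    (hz : z ∈ chartSpan ℓ A N S) : z ∈ Fb N := by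
  induction hz using Submodule.span_induction with
  | mem w hw =>
    obtain ⟨x, rfl⟩ := hw
    exact coeffEmb_mem_laurentBaseChange _ (x : ↥(modularFunctionFieldFull N)).2
  | zero => exact zero_mem _
  | add a b _ _ ha hb => exact add_mem ha hb
  | smul a w _ hw =>
    have h : a • w = algebraMap (AlgebraicClosure ℚ) (LaurentSeries (AlgebraicClosure ℚ))
        (a : AlgebraicClosure ℚ) * w := by
      rw [algebraMap_laurentSeries_eq_single, HahnSeries.single_zero_mul_eq_smul]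
      rfl
    rw [h]
    exact mul_mem (IntermediateField.algebraMap_mem _ _) hw

/-- R2 (first statement), without the hypothesis on `S`. -/
theorem IsChartInt.mem_Adm' (hℓN : ¬ ℓ ∣ N) (hA : A.LiesOverPrime ℓ)
    {S : Set ↥(modularFunctionFieldFull N)}
    {y : LaurentSeries A} (hy : IsChartInt ℓ A N S y) : y ∈ Adm A (Fb N) (Ft A N) :=
  mem_Adm_of_mem_Fb hℓN hA (chartSpan_le_Fb S _ hy)

theorem IsChartInt.mem_Adm (hℓN : ¬ ℓ ∣ N) (hA : A.LiesOverPrime ℓ)
    {S : Set ↥(modularFunctionFieldFull N)} (hS : S ⊆ {jFull N, (jFull N)⁻¹})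
    {y : LaurentSeries A} (hy : IsChartInt ℓ A N S y) : y ∈ Adm A (Fb N) (Ft A N) :=
  IsChartInt.mem_Adm' hℓN hA hy

/-! ### The Gauss normal form (clause 3 of `CoreHyp`) -/

theorem gauss_normal_form (hℓN : ¬ ℓ ∣ N) (hA : A.LiesOverPrime ℓ) :
    ∀ f : Fb N, f ≠ 0 → ∃ (c : AlgebraicClosure ℚ) (y₁ y₂ : Adm A (Fb N) (Ft A N)), c ≠ 0 ∧
      redOf A (Fb N) (Ft A N) y₁ ≠ 0 ∧ redOf A (Fb N) (Ft A N) y₂ ≠ 0 ∧
      f * genOf A (Fb N) (Ft A N) y₂ =
        algebraMap (AlgebraicClosure ℚ) (Fb N) c * genOf A (Fb N) (Ft A N) y₁ := by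
  intro f hf
  have hN := natCast_residue_ne_zero hℓN hA
  have hfmem : (f : LaurentSeries (AlgebraicClosure ℚ)) ∈
      modularFunctionFieldFullC (AlgebraicClosure ℚ) N := by
    rw [← laurentBaseChange_full_eq]
    exact f.2
  obtain ⟨c, u, v, hc, huL, hvL, huk, hu0, hvk, hv0, hrel⟩ :=
    exists_normal_form N A (IsLocalRing.residue A) hN hfmem (fun h => hf (Subtype.ext h))
  rw [← laurentBaseChange_full_eq] at huL hvL
  refine ⟨c, ⟨u, huL, huk⟩, ⟨v, hvL, hvk⟩, hc, ?_, ?_, Subtype.ext hrel⟩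
  · intro h
    exact hu0 (congrArg Subtype.val h)
  · intro h
    exact hv0 (congrArg Subtype.val h)

end Fermat.Agent.S18.RED7251
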